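import Mathlib
import Fermat.Agent.LT.T6.Spec

/-!
# Row LT, tower T6, sub-leaf T6.01 `InstLocalC` (helper176), OFF-MAIN

The completion `K_v` of a number field at a finite place `v` is a local field in the sense of
`T6.IsLocalField`, with `q = N(v)`: characteristic zero, complete, the valuation takes the value
`exp (-1)`, and the images of a system of representatives of `𝓞 K / v` form a full residue
system of `N(v)` elements.

Mathlib only (plus the Spec of the tower, byte-identical copy of origin/helper22@823e765ba).
-/

set_option autoImplicit false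

open IsDedekindDomain NumberField

noncomputable section

namespace Fermat.Agent.LT.T6.H176

variable {K : Type} [Field K] [NumberField K] (v : HeightOneSpectrum (𝓞 K))

/-- The map `𝓞 K → K_v`. -/
def toLoc176 : 𝓞 K →+* v.adicCompletion K :=
  (algebraMap K (v.adicCompletion K)).comp (algebraMap (𝓞 K) K)

theorem toLoc176_injective : Function.Injective (toLoc176 v) :=
  (algebraMap K (v.adicCompletion K)).injective.comp
    (FaithfulSMul.algebraMap_injective (𝓞 K) K)

theorem valued_algebraMap176 (x : K) :
    Valued.v (algebraMap K (v.adicCompletion K) x) = v.valuation K x :=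
  HeightOneSpectrum.valuedAdicCompletion_eq_valuation' v x

theorem valued_toLoc176 (r : 𝓞 K) :
    Valued.v (toLoc176 v r) = v.valuation K (algebraMap (𝓞 K) K r) :=
  valued_algebraMap176 v _

theorem valued_toLoc176_le_one (r : 𝓞 K) : Valued.v (toLoc176 v r) ≤ 1 := by
  rw [valued_toLoc176]
  exact HeightOneSpectrum.valuation_le_one v r

theorem valued_toLoc176_lt_one_iff (r : 𝓞 K) :
    Valued.v (toLoc176 v r) < 1 ↔ r ∈ v.asIdeal := by
  rw [valued_toLoc176]
  exact HeightOneSpectrum.valuation_lt_one_iff_mem v r

theorem valued_toLoc176_eq_one_iff (r : 𝓞 K) :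
    Valued.v (toLoc176 v r) = 1 ↔ r ∉ v.asIdeal := by
  rw [← valued_toLoc176_lt_one_iff v r]
  constructor
  · intro h; rw [h]; exact lt_irrefl _
  · intro h
    exact le_antisymm (valued_toLoc176_le_one v r) (not_lt.mp h)

/-- Every element of `K_v` is `v`-adically close to an element of `K`. -/
theorem exists_rat_sub_lt_one176 (z : v.adicCompletion K) :
    ∃ y : K, Valued.v (z - algebraMap K (v.adicCompletion K) y) < 1 := by
  have hopen : {w : v.adicCompletion K | Valued.v (z - w) < 1} ∈ nhds z := by
    rw [Valued.mem_nhds]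
    refine ⟨1, fun w hw => ?_⟩
    have hw' : Valued.v.restrict (w - z) < 1 := by simpa using hw
    show Valued.v (z - w) < 1
    rw [Valuation.map_sub_swap]
    exact (Valued.v.restrict_lt_one_iff).mp hw'
  obtain ⟨w, ⟨y, rfl⟩, hw⟩ :=
    Dense.inter_nhds_nonempty (HeightOneSpectrum.denseRange_algebraMap (K := K) v) hopen
  exact ⟨y, hw⟩

/-- Every integer of `K_v` is congruent modulo the maximal ideal to an element of `𝓞 K`. -/
theorem exists_int_sub_lt_one176 (z : v.adicCompletion K) (hz : Valued.v z ≤ 1) :
    ∃ a : 𝓞 K, Valued.v (z - toLoc176 v a) < 1 := by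
  obtain ⟨y, hy⟩ := exists_rat_sub_lt_one176 v z
  have hy1 : v.valuation K y ≤ 1 := by
    rw [← valued_algebraMap176 v y]
    have h : algebraMap K (v.adicCompletion K) y
        = z - (z - algebraMap K (v.adicCompletion K) y) := by ring
    rw [h]
    exact (Valuation.map_sub _ _ _).trans (max_le hz hy.le)
  obtain ⟨a, ha⟩ := HeightOneSpectrum.exists_valuation_sub_lt_of_integer v hy1 1
  refine ⟨a, ?_⟩
  have ha' : Valued.v (algebraMap K (v.adicCompletion K) y - toLoc176 v a) < 1 := by
    have h : algebraMap K (v.adicCompletion K) y - toLoc176 v a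
        = algebraMap K (v.adicCompletion K) (y - algebraMap (𝓞 K) K a) := by
      simp [toLoc176]
    rw [h, valued_algebraMap176, Valuation.map_sub_swap]
    simpa using ha
  have h : z - toLoc176 v a
      = (z - algebraMap K (v.adicCompletion K) y)
        + (algebraMap K (v.adicCompletion K) y - toLoc176 v a) := by ring
  rw [h]
  exact lt_of_le_of_lt (Valuation.map_add _ _ _) (max_lt hy ha')

/-- **T6.01 `InstLocalC`.** -/
theorem instLocalC176 : Fermat.Agent.LT.T6.InstLocalC := by
  intro K _ _ v
  classical
  have hfin : Finite (𝓞 K ⧸ v.asIdeal) := v.asIdeal.finiteQuotientOfFreeOfNeBot v.ne_bot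
  let _ : Fintype (𝓞 K ⧸ v.asIdeal) := Fintype.ofFinite _
  -- a section of the residue map
  let sec : 𝓞 K ⧸ v.asIdeal → 𝓞 K := fun c => Quotient.out c
  have hsec : ∀ c, Ideal.Quotient.mk v.asIdeal (sec c) = c := fun c => Quotient.out_eq c
  let f : 𝓞 K ⧸ v.asIdeal → v.adicCompletion K := fun c => toLoc176 v (sec c)
  have hf : Function.Injective f := by
    intro c c' h
    have h' : sec c = sec c' := toLoc176_injective v h
    rw [← hsec c, ← hsec c', h']
  refine ⟨?_, inferInstance, ?_, ?_⟩
  · exact charZero_of_injective_ringHom (algebraMap K (v.adicCompletion K)).injective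
  · obtain ⟨π, hπ⟩ := v.valuation_exists_uniformizer K
    exact ⟨algebraMap K (v.adicCompletion K) π, by rw [valued_algebraMap176, hπ]⟩
  · refine ⟨Finset.univ.image f, ?_, ?_, ?_, ?_⟩
    · rw [Finset.card_image_of_injective _ hf, Finset.card_univ, Ideal.absNorm_apply,
        Submodule.cardQuot_apply, Nat.card_eq_fintype_card]
    · intro x hx
      obtain ⟨c, -, rfl⟩ := Finset.mem_image.mp hx
      exact valued_toLoc176_le_one v _
    · intro x hx y hy hxy
      obtain ⟨c, -, rfl⟩ := Finset.mem_image.mp hx
      obtain ⟨c', -, rfl⟩ := Finset.mem_image.mp hy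
      have hcc : c ≠ c' := fun h => hxy (by rw [h])
      show Valued.v (toLoc176 v (sec c) - toLoc176 v (sec c')) = 1
      rw [← map_sub, valued_toLoc176_eq_one_iff]
      intro hmem
      apply hcc
      rw [← hsec c, ← hsec c']
      exact (Ideal.Quotient.eq).mpr hmem
    · intro z hz
      obtain ⟨a, ha⟩ := exists_int_sub_lt_one176 v z hz
      refine ⟨f (Ideal.Quotient.mk v.asIdeal a), Finset.mem_image.mpr ⟨_, Finset.mem_univ _, rfl⟩,
        ?_⟩
      have hmem : a - sec (Ideal.Quotient.mk v.asIdeal a) ∈ v.asIdeal := by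
        rw [← Ideal.Quotient.eq, hsec]
      have h2 : Valued.v (toLoc176 v a - toLoc176 v (sec (Ideal.Quotient.mk v.asIdeal a))) < 1 := by
        rw [← map_sub, valued_toLoc176_lt_one_iff]
        exact hmem
      have h : z - f (Ideal.Quotient.mk v.asIdeal a)
          = (z - toLoc176 v a)
            + (toLoc176 v a - toLoc176 v (sec (Ideal.Quotient.mk v.asIdeal a))) := by
        show z - toLoc176 v (sec (Ideal.Quotient.mk v.asIdeal a)) = _
        ring
      rw [h]
      exact lt_of_le_of_lt (Valuation.map_add _ _ _) (max_lt ha h2)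

end Fermat.Agent.LT.T6.H176

end
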