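import Mathlib
import Fermat.Agent.LT.T6.H288.HypSpec

/-!
# Row LT, tower T6, sub-leaf T6.12f `CartanUpperC` (helper176), OFF-MAIN

`cartan [[a, u], [0, b]] = (ord a + ord b - j, j)`, `j = min (ord a) (ord b) (ord u)`
(`layerOf`).  Mathlib + `T6/Spec.lean` (helper22) + `T6/H288/HypSpec.lean` (helper288,
origin/helper288@945c32373, byte-identical copies) only.
-/

set_option autoImplicit false

open scoped Matrix

noncomputable section

namespace Fermat.Agent.LT.T6.H176

open Fermat.Agent.LT.T6 Fermat.Agent.LT.T6.H288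

/-- `log` of a supremum of two nonzero elements. -/
theorem log_sup176 {x y : Γ₀} (hx : x ≠ 0) (hy : y ≠ 0) :
    WithZero.log (x ⊔ y) = max (WithZero.log x) (WithZero.log y) := by
  rcases le_total x y with h | h
  · rw [sup_eq_right.mpr h, max_eq_right ((WithZero.log_le_log hx hy).mpr h)]
  · rw [sup_eq_left.mpr h, max_eq_left ((WithZero.log_le_log hy hx).mpr h)]

/-- The largest entry of an upper triangular matrix. -/
theorem entryMax_upper176 {k : Type} [Field k] [Valued k Γ₀] (g : GL (Fin 2) k) (a b u : k)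
    (hg : (g : Matrix (Fin 2) (Fin 2) k) = !![a, u; 0, b]) :
    entryMax g = (Valued.v a ⊔ Valued.v b) ⊔ Valued.v u := by
  unfold entryMax
  apply le_antisymm
  · apply Finset.sup'_le
    rintro ⟨i, j⟩ -
    rw [hg]
    fin_cases i <;> fin_cases j
    · exact le_sup_of_le_left le_sup_left
    · exact le_sup_right
    · simp
    · exact le_sup_of_le_left le_sup_right
  · refine sup_le (sup_le ?_ ?_) ?_
    · have h := Finset.le_sup' (fun p : Fin 2 × Fin 2 =>
        Valued.v ((g : Matrix (Fin 2) (Fin 2) k) p.1 p.2)) (Finset.mem_univ ((0 : Fin 2), (0 : Fin 2)))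
      simpa [hg] using h
    · have h := Finset.le_sup' (fun p : Fin 2 × Fin 2 =>
        Valued.v ((g : Matrix (Fin 2) (Fin 2) k) p.1 p.2)) (Finset.mem_univ ((1 : Fin 2), (1 : Fin 2)))
      simpa [hg] using h
    · have h := Finset.le_sup' (fun p : Fin 2 × Fin 2 =>
        Valued.v ((g : Matrix (Fin 2) (Fin 2) k) p.1 p.2)) (Finset.mem_univ ((0 : Fin 2), (1 : Fin 2)))
      simpa [hg] using h

/-- `- log (entryMax g)` is the layer. -/
theorem neg_log_entryMax_upper176 {k : Type} [Field k] [Valued k Γ₀] (g : GL (Fin 2) k)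
    (a b u : k) (hg : (g : Matrix (Fin 2) (Fin 2) k) = !![a, u; 0, b])
    (ha : a ≠ 0) (hb : b ≠ 0) :
    - WithZero.log (entryMax g) = layerOf (ordv a) (ordv b) u := by
  have hva : (Valued.v a : Γ₀) ≠ 0 := (Valuation.ne_zero_iff _).mpr ha
  have hvb : (Valued.v b : Γ₀) ≠ 0 := (Valuation.ne_zero_iff _).mpr hb
  have hab : (Valued.v a ⊔ Valued.v b : Γ₀) ≠ 0 := by
    intro h
    exact hva (le_antisymm (h ▸ le_sup_left) zero_le)
  rw [entryMax_upper176 g a b u hg]
  unfold layerOf ordv
  by_cases hu : u = 0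
  · rw [if_pos hu, hu, map_zero]
    have : ((Valued.v a ⊔ Valued.v b : Γ₀) ⊔ 0) = Valued.v a ⊔ Valued.v b :=
      sup_eq_left.mpr zero_le
    rw [this, log_sup176 hva hvb, ← min_neg_neg]
  · rw [if_neg hu]
    have hvu : (Valued.v u : Γ₀) ≠ 0 := (Valuation.ne_zero_iff _).mpr hu
    rw [log_sup176 hab hvu, log_sup176 hva hvb, ← min_neg_neg, ← min_neg_neg]

/-- **T6.12f `CartanUpperC`.** -/
theorem cartanUpperC176 : CartanUpperC := by
  intro k _ _ g a b u hg
  have hdet : (g : Matrix (Fin 2) (Fin 2) k).det = a * b := by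
    rw [hg, Matrix.det_fin_two_of]; ring
  have hne : a * b ≠ 0 := by
    rw [← hdet]
    exact Matrix.GeneralLinearGroup.det_ne_zero g
  have ha : a ≠ 0 := left_ne_zero_of_mul hne
  have hb : b ≠ 0 := right_ne_zero_of_mul hne
  have hva : (Valued.v a : Γ₀) ≠ 0 := (Valuation.ne_zero_iff _).mpr ha
  have hvb : (Valued.v b : Γ₀) ≠ 0 := (Valuation.ne_zero_iff _).mpr hb
  have hlayer := neg_log_entryMax_upper176 g a b u hg ha hb
  unfold cartan
  rw [hdet, map_mul, WithZero.log_mul hva hvb, hlayer]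
  have h1 : WithZero.log (entryMax g) = - layerOf (ordv a) (ordv b) u := by
    rw [← hlayer, neg_neg]
  rw [h1]
  unfold ordv
  congr 1
  ring

end Fermat.Agent.LT.T6.H176

end
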